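import Fermat.Agent.S55.W.Arith
import Fermat.Agent.S55.G.Descent

/-!
# S55, chapter K: `κ : C → C♯` is injective
-/

set_option autoImplicit false
set_option linter.unusedSectionVars false
set_option linter.unusedVariables false
set_option linter.style.haveILetI false

namespace Fermat.Agent.S55Lib

noncomputable section

open groupCohomology

variable (S : Finset Nat.Primes)

theorem K_inj (hS : S.Nonempty) : Function.Injective (kapS S) := by
  rw [injective_iff_map_eq_zero]
  intro c hc
  obtain ⟨x, rfl⟩ := WCoker.mk_surjective GQ _ (WdE_equivar (levS S) (Hs S) (rs S) (Bs S)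
    (EA_smooth S) (fun v => lamq S v.1) (fun v => lamq_compat S v.1)) c
  have h2 : WCoker.mk GQ (upsS S) (upsS_equivar S) (JtoCCS S x) = 0 := hc
  rw [WCoker.mk_eq_zero] at h2
  obtain ⟨u, hu⟩ := h2
  set u' : JJ := ((Additive.toMul (u : Additive (UId S)) : UId S) : JJ) with hu'
  have hu'm : u' ∈ UId S := (Additive.toMul (u : Additive (UId S)) : UId S).2
  set X : JJ := Additive.toMul (extJ S x) with hX
  have h3 : CC.mk u' = CC.mk X :=
    congrArg (fun w : CCS S => Additive.toMul (w : Additive CC)) hu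
  obtain ⟨a, ha⟩ : ∃ a, diag a = u'⁻¹ * X := QuotientGroup.eq.1 h3
  have haES : a ∈ ES S := by
    refine ⟨?_, fun q hq g => ?_⟩
    · obtain ⟨U₁, hU₁, hfix₁⟩ := u.2
      obtain ⟨U₂, hU₂, hfix₂⟩ := JA_exists_level S x
      obtain ⟨W, hW, hW1, hW2⟩ := (levS S).directed U₁ hU₁ U₂ hU₂
      refine ⟨W, hW, fun s hs => ?_⟩
      apply diag_injective
      have h4 : s • u' = u' :=
        congrArg (fun w : Additive (UId S) => ((Additive.toMul w : UId S) : JJ)) (hfix₁ s (hW1 hs))
      have h5 : s • X = X := by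
        have h6 : s • extJ S x = extJ S x := by rw [← extJ_equivar, hfix₂ s (hW2 hs)]
        exact congrArg Additive.toMul h6
      rw [← smul_diag, ha, smul_mul', smul_inv', h4, h5]
    · rw [← diag_comp, ha, cmp_mul, cmp_inv, hX, cmp_extJ_of_not_mem S x q hq g, mul_one,
        Units.val_inv_eq_inv_val, norm_inv, hu'm.2 q hq g, inv_one]
  rw [WCoker.mk_eq_zero]
  refine ⟨Additive.ofMul ⟨a, haES⟩, ?_⟩
  funext v
  apply Subtype.ext
  funext g
  have h7 : cmp (diag a) v.1 g = cmp X v.1 g := by
    rw [ha, cmp_mul, cmp_inv, hu'm.1 v.1 v.2 g, inv_one, one_mul]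
  rw [hX, cmp_extJ] at h7
  exact congrArg Additive.ofMul h7

end

end Fermat.Agent.S55Lib
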