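import Fermat.Agent.S55.K.Root
import Fermat.Agent.S55.G.ClassNumber
import Fermat.Agent.S55.G.DescentC
import Fermat.Agent.S55.G.LocFix
import Fermat.Agent.S55.G2.PlaceDense
import Fermat.Agent.S55.G2.TameFix

/-!
# S55, chapter K: the cokernel of `κ : C → C♯` is `p'`-torsion
-/

set_option autoImplicit false
set_option linter.unusedSectionVars false
set_option linter.unusedVariables false
set_option linter.style.haveILetI false

namespace Fermat.Agent.S55Lib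

noncomputable section

open groupCohomology ExtCitation

variable {p : ℕ} [Fact p.Prime] (S : Finset Nat.Primes)

/-- an element of a completion has the norm of a global element -/
lemma K_exists_norm_eq (F : IntermediateField ℚ Qbar) [FiniteDimensional ℚ F] (q : Nat.Primes)
    (g : GQ) (z : Om q) (hz : z ∈ locF q g F) (hz0 : z ≠ 0) :
    ∃ c ∈ F, c ≠ 0 ∧ ‖iq q (g c)‖ = ‖z‖ := by
  obtain ⟨c, hcF, hc⟩ := dense_locF F q g z hz ‖z‖ (norm_pos_iff.2 hz0)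
  have h1 : ‖iq q (g c)‖ = ‖z‖ := LT_norm_eq_of_sub_lt (by rwa [norm_sub_rev])
  refine ⟨c, hcF, ?_, h1⟩
  rintro rfl
  rw [map_zero, map_zero, norm_zero] at h1
  exact hz0 (norm_eq_zero.1 h1.symm)

/-- the element of `J` cut out of an `S`-level idele -/
def K_cut (z : JJ) (hz : ∃ W ∈ (levS S).mem, ∀ s ∈ W, s • z = z) : JA S :=
  fun v => ⟨fun g => Additive.ofMul (cmp z v.1 g),
    fun h g => congrArg Additive.ofMul (cmp_rq z v.1 h g), by
      obtain ⟨W, hW, hfix⟩ := hz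
      refine ⟨W, hW, fun g s hs => ?_⟩
      show Additive.ofMul (cmp z v.1 (g * s)) = Additive.ofMul (cmp z v.1 g)
      rw [← cmp_smul, hfix s hs]⟩

lemma K_cmp_cut (z : JJ) (hz : ∃ W ∈ (levS S).mem, ∀ s ∈ W, s • z = z) (q : Nat.Primes)
    (hq : q ∈ S) (g : GQ) : cmp (Additive.toMul (extJ S (K_cut S z hz))) q g = cmp z q g :=
  cmp_extJ S (K_cut S z hz) ⟨q, hq⟩ g

lemma K_smul_cut (z : JJ) (hz : ∃ W ∈ (levS S).mem, ∀ s ∈ W, s • z = z) (s : GQ)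
    (hs : s • z = z) : s • K_cut S z hz = K_cut S z hz := by
  funext v
  apply Subtype.ext
  funext g
  show Additive.ofMul (cmp z v.1 (g * s)) = Additive.ofMul (cmp z v.1 g)
  rw [← cmp_smul, hs]

/-- idele form of the capitulation of `p`-classes -/
lemma K_tor_idele (hpS : pPrime p ∈ S) (F : IntermediateField ℚ Qbar)
    (hfd : FiniteDimensional ℚ F) (hst : StableF F) (hur : F.IsUnramifiedOutside S)
    (y : JJ) (hy : y ∈ JF F) :
    ∃ m : ℕ, m.Coprime p ∧ ∃ (bu : Qbarˣ) (z : JJ), (∃ W ∈ (levS S).mem, ∀ s ∈ W, s • z = z) ∧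
      (∀ q g, ‖((cmp z q g : (Om q)ˣ) : Om q)‖ = 1) ∧ y ^ m = z * diag bu := by
  have hp : p.Prime := Fact.out
  obtain ⟨h, hh0, hh⟩ := exists_classNumber F
  obtain ⟨k, m, hm, hkm⟩ := Nat.exists_eq_pow_mul_and_not_dvd hh0.ne' p hp.ne_one
  have hmp : m.Coprime p := ((Nat.Prime.coprime_iff_not_dvd hp).2 hm).symm
  refine ⟨m, hmp, ?_⟩
  obtain ⟨N, hN⟩ : ∃ N : ℕ, N = p ^ k := ⟨_, rfl⟩
  rw [← hN] at hkm
  have hN0 : 0 < N := by rw [hN]; exact pow_pos hp.pos k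
  obtain ⟨a, haF, u, hu, hyh⟩ := hh y hy
  obtain ⟨y', hy'⟩ : ∃ y' : JJ, y' = y ^ m := ⟨_, rfl⟩
  have hy'F : y' ∈ JF F := by rw [hy']; exact Subgroup.pow_mem _ hy m
  have hy'N : y' ^ N = diag a * u := by rw [hy', ← pow_mul, mul_comm m N, ← hkm, hyh]
  have hex : ∃ b : Qbar, b ^ N = (a : Qbar) := IsAlgClosed.exists_pow_nat_eq (a : Qbar) hN0
  obtain ⟨b, hb⟩ := hex
  have hb0 : b ≠ 0 := by
    rintro rfl
    rw [zero_pow hN0.ne'] at hb
    exact a.ne_zero hb.symm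
  have hun : ∀ q g, ‖((cmp u q g : (Om q)ˣ) : Om q)‖ = 1 :=
    fun q g => hu.2.2 q (Finset.notMem_empty q) g
  have hloc : ∀ q : Nat.Primes, q ∉ S → ∀ g : GQ, ∃ c ∈ F, c ≠ 0 ∧
      ‖iq q (g (a : Qbar))‖ = ‖iq q (g c)‖ ^ N := by
    intro q hq g
    obtain ⟨c, hcF, hc0, hc⟩ := K_exists_norm_eq F q g _ (cmp_mem_locF F y' hy'F q g)
      (Units.ne_zero _)
    refine ⟨c, hcF, hc0, ?_⟩
    have h1 : ‖((cmp (y' ^ N) q g : (Om q)ˣ) : Om q)‖ =
        ‖((cmp (diag a * u) q g : (Om q)ˣ) : Om q)‖ := by rw [hy'N]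
    rw [cmp_pow, cmp_mul, Units.val_pow_eq_pow_val, Units.val_mul, norm_pow, norm_mul,
      hun q g, mul_one, diag_comp] at h1
    rw [hc, h1]
  obtain ⟨U₁, hU₁, hfix₁⟩ := K_root_level S N hN0
    (fun q hq hdvd => PL_not_dvd S p hpS q hq (q.2.dvd_of_dvd_pow (hN ▸ hdvd))) F hst hur
    (a : Qbar) haF hloc b hb
  obtain ⟨W, hW, hW1, hW2⟩ := (levS S).directed U₁ hU₁ F.fixingSubgroup ⟨F, hfd, hst, hur, rfl⟩
  obtain ⟨bu, hbu⟩ : ∃ bu : Qbarˣ, (bu : Qbar) = b := ⟨Units.mk0 b hb0, rfl⟩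
  have hbuN : bu ^ N = a := Units.ext (by rw [Units.val_pow_eq_pow_val, hbu, hb])
  obtain ⟨z, hz⟩ : ∃ z : JJ, z = y' * (diag bu)⁻¹ := ⟨_, rfl⟩
  have hzW : ∀ s ∈ W, s • z = z := by
    intro s hs
    have h1 : s • bu = bu := Units.ext (by
      show s (bu : Qbar) = bu
      rw [hbu]; exact hfix₁ s (hW1 hs))
    rw [hz, smul_mul', smul_inv', smul_diag, h1, hy'F s (hW2 hs)]
  have hzN : z ^ N = u := by
    rw [hz, mul_pow, inv_pow, ← map_pow, hbuN, hy'N, mul_comm (diag a), mul_inv_cancel_right]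
  have hzn : ∀ q g, ‖((cmp z q g : (Om q)ˣ) : Om q)‖ = 1 := by
    intro q g
    have h1 := hun q g
    rw [← hzN, cmp_pow, Units.val_pow_eq_pow_val, norm_pow] at h1
    exact (pow_eq_one_iff_of_nonneg (norm_nonneg _) hN0.ne').1 h1
  refine ⟨bu, z, ⟨W, hW, hzW⟩, hzn, ?_⟩
  rw [← hy', hz, inv_mul_cancel_right]

/-- an `S`-level idele with unit components is in the image of `J × U^S` -/
lemma K_tor_split (z : JJ) (hzl : ∃ W ∈ (levS S).mem, ∀ s ∈ W, s • z = z)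
    (hzn : ∀ q g, ‖((cmp z q g : (Om q)ˣ) : Om q)‖ = 1) :
    ∃ (x : JA S) (w : UIS S),
      z = Additive.toMul (extJ S x) * ((Additive.toMul (w : Additive (UId S)) : UId S) : JJ) := by
  obtain ⟨W, hW, hzW⟩ := hzl
  have hzl : ∃ W ∈ (levS S).mem, ∀ s ∈ W, s • z = z := ⟨W, hW, hzW⟩
  obtain ⟨x, hx⟩ : ∃ x : JA S, x = K_cut S z hzl := ⟨_, rfl⟩
  obtain ⟨X, hX⟩ : ∃ X : JJ, X = Additive.toMul (extJ S x) := ⟨_, rfl⟩
  have hXW : ∀ s ∈ W, s • X = X := by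
    intro s hs
    have h6 : s • extJ S x = extJ S x := by
      rw [← extJ_equivar, hx, K_smul_cut S z hzl s (hzW s hs)]
    rw [hX]
    exact congrArg Additive.toMul h6
  obtain ⟨zU, hzU⟩ : ∃ zU : JJ, zU = X⁻¹ * z := ⟨_, rfl⟩
  have hzUm : zU ∈ UId S := by
    refine ⟨fun q hq g => ?_, fun q hq g => ?_⟩
    · rw [hzU, cmp_mul, cmp_inv, hX, hx, K_cmp_cut S z hzl q hq g, inv_mul_cancel]
    · rw [hzU, cmp_mul, cmp_inv, hX, cmp_extJ_of_not_mem S x q hq g, inv_one, one_mul, hzn q g]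
  refine ⟨x, ⟨Additive.ofMul ⟨zU, hzUm⟩, W, hW, fun s hs => ?_⟩, ?_⟩
  · apply congrArg Additive.ofMul
    apply Subtype.ext
    show s • zU = zU
    rw [hzU, smul_mul', smul_inv', hzW s hs, hXW s hs]
  · show z = Additive.toMul (extJ S x) * zU
    rw [← hX, hzU, mul_inv_cancel_left]

lemma K_mk_aux (y z X w : JJ) (bu : Qbarˣ) (m : ℕ) (hyz : y ^ m = z * diag bu) (hxw : z = X * w) :
    CC.mk w = CC.mk y ^ m / CC.mk X := by
  have h1 : CC.mk y ^ m = CC.mk (y ^ m) := (map_pow (QuotientGroup.mk' diag.range) y m).symm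
  have h2 : ∀ r t : JJ, CC.mk (r * t) = CC.mk r * CC.mk t := fun _ _ => rfl
  have h3 : CC.mk (diag bu) = 1 := (QuotientGroup.eq_one_iff _).2 ⟨bu, rfl⟩
  rw [h1, hyz, hxw, h2, h2, h3, mul_one, mul_div_cancel_left]

set_option maxHeartbeats 800000 in
/-- capitulation of `p`-classes: the cokernel of `κ` is `p'`-torsion -/
theorem K_tor (hpS : pPrime p ∈ S) (c : CSh S) :
    ∃ m : ℕ, m.Coprime p ∧ ∃ c', kapS S c' = m • c := by
  obtain ⟨c₀, rfl⟩ := WCoker.mk_surjective GQ (upsS S) (upsS_equivar S) c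
  obtain ⟨U, hU, hfix₀⟩ := c₀.2
  obtain ⟨F, hfd, hst, hur, rfl⟩ := hU
  have hc₀ : Additive.toMul (c₀ : Additive CC) ∈ CF F :=
    fun s hs => congrArg Additive.toMul (hfix₀ s hs)
  obtain ⟨y, hy, hyc⟩ := exists_JF_of_mem_CF F _ hc₀
  obtain ⟨m, hmp, bu, z, hzl, hzn, hyz⟩ := K_tor_idele S hpS F hfd hst hur y hy
  obtain ⟨x, w, hxw⟩ := K_tor_split S z hzl hzn
  refine ⟨m, hmp, WCoker.mk GQ _ (WdE_equivar (levS S) (Hs S) (rs S) (Bs S)
    (EA_smooth S) (fun v => lamq S v.1) (fun v => lamq_compat S v.1)) x, ?_⟩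
  show WCoker.mk GQ (upsS S) (upsS_equivar S) (JtoCCS S x) = _
  rw [← map_nsmul, eq_comm, ← sub_eq_zero, ← map_sub, WCoker.mk_eq_zero]
  refine ⟨w, ?_⟩
  apply Subtype.ext
  apply congrArg Additive.ofMul
    (a₂ := (Additive.toMul (c₀ : Additive CC)) ^ m / CC.mk (Additive.toMul (extJ S x)))
  show CC.mk ((Additive.toMul (w : Additive (UId S)) : UId S) : JJ) = _
  rw [← hyc]
  exact K_mk_aux y z _ _ bu m hyz hxw

end

end Fermat.Agent.S55Lib
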