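import Fermat.Agent.S55.E.Div

/-!
# S55, chapter K: roots of locally-`N`-th-power-times-unit numbers are unramified outside `S`
-/

set_option autoImplicit false
set_option linter.unusedSectionVars false
set_option linter.unusedVariables false
set_option linter.style.haveILetI false

namespace Fermat.Agent.S55Lib

noncomputable section

open groupCohomology ExtCitation Polynomial

variable (S : Finset Nat.Primes)

lemma K_root_finite (N : ℕ) (hN : 0 < N) (a : Qbar) :
    {c : Qbar | ∃ g : GQ, c ^ N = g a}.Finite := by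
  haveI : Algebra.IsAlgebraic ℚ Qbar := AlgebraicClosure.isAlgebraic ℚ
  have hint : IsIntegral ℚ a := Algebra.IsIntegral.isIntegral a
  have hR : {r : Qbar | ∃ g : GQ, r = g a}.Finite := by
    refine ((minpoly ℚ a).rootSet_finite Qbar).subset ?_
    rintro _ ⟨g, rfl⟩
    rw [mem_rootSet]
    refine ⟨minpoly.ne_zero hint, ?_⟩
    have h1 := aeval_algHom_apply (g : Qbar →ₐ[ℚ] Qbar) a (minpoly ℚ a)
    rw [minpoly.aeval, map_zero] at h1
    exact h1
  have := Set.Finite.preimage' (f := fun c : Qbar => c ^ N) hR (fun r _ => by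
    refine (nthRootsFinset N r).finite_toSet.subset ?_
    intro z hz
    exact (mem_nthRootsFinset hN _).2 hz)
  exact this

/-- if `a ∈ F` (`F` an `S`-level) is, at every place outside `S`, a unit times an `N`-th power of
an element of `F`, and `N` is prime to the primes outside `S`, then the `N`-th roots of `a` are
of `S`-level -/
lemma K_root_level (N : ℕ) (hN : 0 < N) (hqN : ∀ q : Nat.Primes, q ∉ S → ¬ (q : ℕ) ∣ N)
    (F : IntermediateField ℚ Qbar) (hst : StableF F) (hur : F.IsUnramifiedOutside S)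
    (a : Qbar) (haF : a ∈ F)
    (hloc : ∀ q : Nat.Primes, q ∉ S → ∀ g : GQ, ∃ c ∈ F, c ≠ 0 ∧
      ‖iq q (g a)‖ = ‖iq q (g c)‖ ^ N)
    (b : Qbar) (hb : b ^ N = a) : ∃ U ∈ (levS S).mem, ∀ s ∈ U, s b = b := by
  have hlev := PL_mem_levS_of_finite S {c : Qbar | ∃ g : GQ, c ^ N = g a} (K_root_finite N hN a)
    (by
      rintro σ x ⟨g, hg⟩
      exact ⟨σ * g, by rw [← map_pow, hg]; rfl⟩)
    (by
      rintro q hq A hA γ hγ x ⟨g, hg⟩
      obtain ⟨τ, hτ⟩ := PL_exists_smul_eq q.2 _ A (PL_padicPlace_liesOver q) hA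
      obtain ⟨c, hcF, hc0, hc⟩ := hloc q hq (τ⁻¹ * g)
      have hgc0 : g c ≠ 0 := fun h => hc0 ((map_eq_zero g).1 h)
      have hgcF : g c ∈ F := hst g c hcF
      have hgaF : g a ∈ F := hst g a haF
      have hfixF : ∀ γ' ∈ A.inertiaSubgroupIn ℚ, ∀ z ∈ F, γ' z = z := by
        intro γ' hγ' z hz
        have h1 : γ' ∈ F.fixingSubgroup := hur.2 q hq A hA hγ'
        rw [IntermediateField.mem_fixingSubgroup_iff] at h1
        exact h1 z hz
      have hpow : (x / g c) ^ N = g a / g c ^ N := by rw [div_pow, hg]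
      have hn1 : ‖iq q (τ⁻¹ (g a / g c ^ N))‖ = 1 := by
        have h1 : ‖iq q (τ⁻¹ (g c))‖ ≠ 0 := by
          rw [norm_ne_zero_iff]
          intro h
          exact hgc0 ((map_eq_zero τ⁻¹).1 ((map_eq_zero (iq q)).1 h))
        rw [map_div₀, map_div₀, map_pow, map_pow, norm_div, norm_pow]
        have h2 : ‖iq q (τ⁻¹ (g a))‖ = ‖iq q (τ⁻¹ (g c))‖ ^ N := hc
        rw [h2]
        exact div_self (pow_ne_zero _ h1)
      have h3 := PL_root_fixed q.2 (hqN q hq) A hA (x / g c) (by
          rw [hpow, ← hτ]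
          refine ⟨?_, ?_⟩
          · rw [PL_mem_smul, PL_mem_padicPlace, hn1]
          · rw [PL_mem_smul, PL_mem_padicPlace, map_inv₀, map_inv₀, norm_inv, hn1, inv_one])
        (by
          intro γ' hγ'
          rw [hpow]
          exact hfixF γ' hγ' _ (div_mem hgaF (pow_mem hgcF N))) γ hγ
      rw [map_div₀, hfixF γ hγ _ hgcF] at h3
      exact (div_left_inj' hgc0).1 h3)
  refine ⟨_, hlev, fun s hs => ?_⟩
  rw [IntermediateField.mem_fixingSubgroup_iff] at hs
  exact hs b (IntermediateField.subset_adjoin ℚ _ ⟨1, by rw [hb]; rfl⟩)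

end

end Fermat.Agent.S55Lib
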